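import Fermat.Agent.ES.Ring.Fibre
import Mathlib.RingTheory.RootsOfUnity.Lemmas
import Mathlib.Algebra.Order.AbsoluteValue.Basic
import Mathlib.Algebra.Order.Ring.IsNonarchimedean

/-!
# Nonarchimedean absolute values of `ℂ` above a prime
-/

set_option autoImplicit false

open Polynomial

noncomputable section

namespace FermatAgent.ES

/-- An absolute value of `ℂ` over the prime `ℓ`. -/
structure CPlace (ℓ : ℕ) where
  /-- The absolute value. -/
  abv : AbsoluteValue ℂ ℝ
  nonarch : IsNonarchimedean abv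
  lt_one : abv ℓ < 1

namespace CPlace

variable {ℓ : ℕ} (P : CPlace ℓ)

/-- The ultrametric inequality. -/
theorem add_le {x y : ℂ} {c : ℝ} (hx : P.abv x ≤ c) (hy : P.abv y ≤ c) : P.abv (x + y) ≤ c :=
  (P.nonarch x y).trans (max_le hx hy)

/-- The strict ultrametric inequality. -/
theorem add_lt {x y : ℂ} {c : ℝ} (hx : P.abv x < c) (hy : P.abv y < c) : P.abv (x + y) < c :=
  (P.nonarch x y).trans_lt (max_lt hx hy)

/-- The valuation ring. -/
def ring : Subring ℂ where
  carrier := {x | P.abv x ≤ 1}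
  one_mem' := by simp
  zero_mem' := by simp
  mul_mem' {x y} hx hy := by
    simp only [Set.mem_ofPred_eq, map_mul] at hx hy ⊢
    exact mul_le_one₀ hx (P.abv.nonneg y) hy
  add_mem' {x y} hx hy := P.add_le hx hy
  neg_mem' {x} hx := by simpa using hx

/-- The valuation ring consists of the numbers of absolute value at most `1`. -/
theorem mem_ring {x : ℂ} : x ∈ P.ring ↔ P.abv x ≤ 1 := Iff.rfl

/-- The closed ball of radius `c`. -/
def ball (c : ℝ) (hc : 0 ≤ c) : AddSubgroup ℂ where
  carrier := {x | P.abv x ≤ c}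
  zero_mem' := by simpa using hc
  add_mem' {x y} hx hy := P.add_le hx hy
  neg_mem' {x} hx := by simpa using hx

/-- The ball of radius `c` consists of the numbers of absolute value at most `c`. -/
theorem mem_ball {c : ℝ} (hc : 0 ≤ c) {x : ℂ} : x ∈ P.ball c hc ↔ P.abv x ≤ c := Iff.rfl

/-- Balls are stable under multiplication by the valuation ring. -/
theorem mul_mem_ball {c : ℝ} (hc : 0 ≤ c) :
    ∀ a ∈ P.ring, ∀ x ∈ P.ball c hc, a * x ∈ P.ball c hc := by
  intro a ha x hx
  rw [mem_ball, map_mul]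
  calc P.abv a * P.abv x ≤ 1 * c :=
        mul_le_mul ha hx (P.abv.nonneg x) zero_le_one
    _ = c := one_mul c

/-- The maximal ideal. -/
def maxBall : AddSubgroup ℂ where
  carrier := {x | P.abv x < 1}
  zero_mem' := by simp
  add_mem' {x y} hx hy := P.add_lt hx hy
  neg_mem' {x} hx := by simpa using hx

/-- The maximal ideal consists of the numbers of absolute value `< 1`. -/
theorem mem_maxBall {x : ℂ} : x ∈ P.maxBall ↔ P.abv x < 1 := Iff.rfl

/-- The maximal ideal is stable under multiplication by the valuation ring. -/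
theorem mul_mem_maxBall : ∀ a ∈ P.ring, ∀ x ∈ P.maxBall, a * x ∈ P.maxBall := by
  intro a ha x hx
  rw [mem_maxBall, map_mul]
  exact (mul_le_of_le_one_left (P.abv.nonneg x) ha).trans_lt hx

/-- An element of absolute value `1` is a unit of the valuation ring. -/
theorem unitIn_of_abv_eq_one {x : ℂ} (hx : P.abv x = 1) : UnitIn P.ring x :=
  ⟨fun h => by simp [h] at hx, hx.le, by rw [mem_ring, map_inv₀, hx, inv_one]⟩

/-- A unit of the valuation ring has absolute value `1`. -/
theorem abv_eq_one_of_unitIn {x : ℂ} (hx : UnitIn P.ring x) : P.abv x = 1 := by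
  refine le_antisymm hx.2.1 ?_
  have h := hx.2.2
  rw [mem_ring, map_inv₀] at h
  exact (inv_le_one₀ (P.abv.pos hx.1)).mp h

/-- Natural numbers are integral. -/
theorem abv_natCast_le_one (k : ℕ) : P.abv k ≤ 1 := natCast_mem P.ring k

/-- Natural numbers prime to `ℓ` have absolute value `1`. -/
theorem abv_natCast_eq_one {k : ℕ} (hk : k.Coprime ℓ) : P.abv k = 1 := by
  refine le_antisymm (P.abv_natCast_le_one k) ?_
  by_contra h
  push Not at h
  obtain ⟨u, v, huv⟩ : IsCoprime (k : ℤ) (ℓ : ℤ) := Nat.isCoprime_iff_coprime.mpr hk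
  have e : ((u : ℂ) * (k : ℂ) + (v : ℂ) * (ℓ : ℂ)) = 1 := by exact_mod_cast huv
  have h1 : P.abv ((u : ℂ) * (k : ℂ) + (v : ℂ) * (ℓ : ℂ)) < 1 :=
    P.add_lt (P.mul_mem_maxBall _ (intCast_mem P.ring u) _ h)
      (P.mul_mem_maxBall _ (intCast_mem P.ring v) _ P.lt_one)
  rw [e, map_one] at h1
  exact lt_irrefl _ h1

/-- Roots of unity have absolute value `1`. -/
theorem abv_eq_one_of_pow_eq_one {x : ℂ} {k : ℕ} (hk : k ≠ 0) (hx : x ^ k = 1) :
    P.abv x = 1 := by
  have h := congrArg P.abv hx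
  rw [map_pow, map_one] at h
  exact (pow_eq_one_iff_of_nonneg (P.abv.nonneg x) hk).mp h

/-- For level prime to `ℓ` the standard root of unity is good over the valuation ring. -/
theorem goodRoot {M : ℕ} [NeZero M] (hℓ : M.Coprime ℓ) : GoodRoot M P.ring (zetaC M) := by
  have hprim := zetaC_isPrimitiveRoot M
  have hz : P.abv (zetaC M) = 1 := P.abv_eq_one_of_pow_eq_one (NeZero.ne M) hprim.pow_eq_one
  refine ⟨hprim, hz.le, fun i hi => P.unitIn_of_abv_eq_one ?_⟩
  have hmem : ∀ j, P.abv (1 - zetaC M ^ j) ≤ 1 := fun j =>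
    P.ring.sub_mem P.ring.one_mem (P.ring.pow_mem hz.le j)
  obtain ⟨k, hk⟩ : ∃ k, M = k + 1 := ⟨M - 1, by have := NeZero.one_le (n := M); omega⟩
  have hprod := (hk ▸ hprim : IsPrimitiveRoot (zetaC M) (k + 1)).prod_one_sub_pow_eq_order
  rw [← pow_mod_orderOf, ← hprim.eq_orderOf]
  have hr : i % M ≠ 0 := fun h => hi (Nat.dvd_of_mod_eq_zero h)
  have hlt : i % M - 1 < k := by have := Nat.mod_lt i (Nat.pos_of_ne_zero (NeZero.ne M)); omega
  have h := congrArg P.abv hprod
  rw [map_prod, show ((k : ℂ) + 1) = ((k + 1 : ℕ) : ℂ) by push_cast; ring,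
    P.abv_natCast_eq_one (hk ▸ hℓ), ← Finset.mul_prod_erase _ _ (Finset.mem_range.mpr hlt),
    show i % M - 1 + 1 = i % M by omega] at h
  refine le_antisymm (hmem _) ?_
  calc (1 : ℝ) = _ := h.symm
    _ ≤ P.abv (1 - zetaC M ^ (i % M)) * 1 :=
      mul_le_mul_of_nonneg_left (Finset.prod_le_one (fun j _ => P.abv.nonneg _) fun j _ => hmem _)
        (P.abv.nonneg _)
    _ = _ := mul_one _

/-- The valuation ring is integrally closed in `ℂ`. -/
theorem integrallyClosed (x : ℂ)
    (hx : ∃ F : P.ring[X], F.Monic ∧ (F.map P.ring.subtype).eval x = 0) : x ∈ P.ring := by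
  obtain ⟨F, hF, hev⟩ := hx
  rw [mem_ring]
  by_contra hgt
  push Not at hgt
  rw [eval_eq_sum_range, natDegree_map_eq_of_injective (Subring.subtype_injective _),
    Finset.sum_range_succ, coeff_map, hF.coeff_natDegree, map_one, one_mul] at hev
  set d := F.natDegree with hd
  rcases Nat.eq_zero_or_pos d with h0 | hpos
  · simp [h0] at hev
  have hterm : ∀ i ∈ Finset.range d,
      P.abv ((F.map P.ring.subtype).coeff i * x ^ i) ≤ P.abv x ^ (d - 1) := by
    intro i hi
    rw [map_mul, map_pow, coeff_map]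
    calc P.abv (F.coeff i : ℂ) * P.abv x ^ i ≤ 1 * P.abv x ^ (d - 1) :=
          mul_le_mul (F.coeff i).2 (pow_le_pow_right₀ hgt.le (by
            have := Finset.mem_range.mp hi; omega)) (pow_nonneg (P.abv.nonneg _) _) zero_le_one
      _ = _ := one_mul _
  have hsum : P.abv (∑ i ∈ Finset.range d, (F.map P.ring.subtype).coeff i * x ^ i) ≤
      P.abv x ^ (d - 1) :=
    Finset.sum_induction _ (fun y => P.abv y ≤ P.abv x ^ (d - 1)) (fun _ _ => P.add_le)
      (by simp) hterm
  rw [eq_neg_of_add_eq_zero_left hev, P.abv.map_neg, map_pow] at hsum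
  exact absurd hsum (not_le.mpr (pow_lt_pow_right₀ hgt (by omega)))

end CPlace

end FermatAgent.ES
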