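import Fermat.Agent.ES.Coeff.Place
import Fermat.Agent.ES.Forms.GalChar
import Fermat.Agent.GaloisBasic.Frobenius
import Fermat.Prelude.Thm_IsLocalRing_isAdicComplete_of_module_finite
import Mathlib.NumberTheory.Padics.Complex
import Mathlib.Analysis.Normed.Unbundled.SpectralNorm
import Mathlib.FieldTheory.IsAlgClosed.Classification
import Mathlib.Topology.Algebra.Module.Cardinality
import Mathlib.RingTheory.Algebraic.Cardinality
import Mathlib.RingTheory.DedekindDomain.IntegralClosure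

/-!
# Places of `ℂ` from `ℓ`-adic embeddings, and complete discrete valuation rings inside them
-/

set_option autoImplicit false

open Polynomial Cardinal
open scoped Pointwise

noncomputable section

namespace FermatAgent.ES

section Padic

variable (ℓ : ℕ) [Fact ℓ.Prime]

theorem mk_padic : #ℚ_[ℓ] = 𝔠 := by
  refine le_antisymm ?_ (continuum_le_cardinal_of_nontriviallyNormedField _)
  calc #ℚ_[ℓ] ≤ #(CauSeq ℚ (padicNorm ℓ)) :=
        Cardinal.mk_le_of_surjective Quotient.mk''_surjective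
    _ ≤ #(ℕ → ℚ) := Cardinal.mk_le_of_injective Subtype.val_injective
    _ = 𝔠 := by simp

theorem mk_padicAlgCl : #(PadicAlgCl ℓ) = 𝔠 := by
  refine le_antisymm ?_ (le_of_eq_of_le (mk_padic ℓ).symm
    (Cardinal.mk_le_of_injective (algebraMap ℚ_[ℓ] (PadicAlgCl ℓ)).injective))
  refine (Algebra.IsAlgebraic.cardinalMk_le_max ℚ_[ℓ] (PadicAlgCl ℓ)).trans ?_
  rw [mk_padic ℓ]
  exact max_le le_rfl aleph0_le_continuum

theorem exists_padicEquiv : Nonempty (ℂ ≃+* PadicAlgCl ℓ) :=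
  IsAlgClosed.ringEquiv_of_equiv_of_charZero (mk_complex ▸ aleph0_lt_continuum)
    (Cardinal.eq.mp (mk_complex.trans (mk_padicAlgCl ℓ).symm))

variable {ℓ}

/-- The place attached to an identification with `PadicAlgCl ℓ`. -/
def CPlace.ofEquiv (Φ : ℂ ≃+* PadicAlgCl ℓ) : CPlace ℓ where
  abv :=
    { toFun := fun x => ‖Φ x‖
      map_mul' := fun x y => by rw [map_mul, norm_mul]
      nonneg' := fun x => norm_nonneg _
      eq_zero' := fun x => by simp
      add_le' := fun x y => by rw [map_add]; exact norm_add_le _ _ }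
  nonarch x y := by
    show ‖Φ (x + y)‖ ≤ max ‖Φ x‖ ‖Φ y‖
    rw [map_add]
    exact IsUltrametricDist.norm_add_le_max _ _
  lt_one := by
    show ‖Φ (ℓ : ℂ)‖ < 1
    rw [map_natCast, ← map_natCast (algebraMap ℚ_[ℓ] (PadicAlgCl ℓ)), norm_algebraMap',
      Padic.norm_p]
    exact inv_lt_one_of_one_lt₀ (by exact_mod_cast (Fact.out : ℓ.Prime).one_lt)

/-- The absolute value of the place is the `ℓ`-adic norm. -/
@[simp] theorem CPlace.ofEquiv_abv (Φ : ℂ ≃+* PadicAlgCl ℓ) (x : ℂ) :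
    (CPlace.ofEquiv Φ).abv x = ‖Φ x‖ := rfl

/-- The valuation ring of `ℚ̄` cut out by a place of `ℂ`. -/
def CPlace.algVal (P : CPlace ℓ) : ValuationSubring (AlgebraicClosure ℚ) where
  toSubring := P.ring.comap embC.toRingHom
  mem_or_inv_mem' x := by
    rcases le_or_gt (P.abv (embC x)) 1 with h | h
    · exact Or.inl h
    · refine Or.inr ?_
      show P.abv (embC x⁻¹) ≤ 1
      rw [map_inv₀, map_inv₀]
      exact inv_le_one_of_one_le₀ h.le

omit [Fact ℓ.Prime] in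
/-- An algebraic number lies in the valuation ring iff its absolute value at the place is at most
`1`. -/
theorem CPlace.mem_algVal {P : CPlace ℓ} {x : AlgebraicClosure ℚ} :
    x ∈ P.algVal ↔ P.abv (embC x) ≤ 1 := Iff.rfl

/-- The valuation ring of `ℚ̄` cut out by the place lies over `ℓ`. -/
theorem CPlace.algVal_liesOverPrime (P : CPlace ℓ) : P.algVal.LiesOverPrime ℓ := by
  rw [ValuationSubring.LiesOverPrime]
  have h1 : ((ℓ : ℤ) : AlgebraicClosure ℚ) = (ℓ : AlgebraicClosure ℚ) := by simp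
  rw [ValuationSubring.mem_nonunits_iff]
  have hne : (ℓ : AlgebraicClosure ℚ) ≠ 0 := Nat.cast_ne_zero.mpr (Fact.out : ℓ.Prime).ne_zero
  by_contra h
  have hinv : (ℓ : AlgebraicClosure ℚ)⁻¹ ∈ P.algVal := by
    rw [← P.algVal.valuation_le_one_iff, map_inv₀]
    refine inv_le_one_of_one_le₀ ?_
    simpa [not_lt] using h
  rw [CPlace.mem_algVal, map_inv₀, map_inv₀, map_natCast] at hinv
  exact absurd ((inv_le_one₀ (P.abv.pos (Nat.cast_ne_zero.mpr (Fact.out : ℓ.Prime).ne_zero))).mp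
    hinv) (not_le.mpr P.lt_one)

/-- Every place of `ℚ̄` over `ℓ` comes from an identification `ℂ ≃+* PadicAlgCl ℓ`. -/
theorem exists_padicEquiv_compat {A : ValuationSubring (AlgebraicClosure ℚ)}
    (hA : A.LiesOverPrime ℓ) :
    ∃ Φ : ℂ ≃+* PadicAlgCl ℓ, (CPlace.ofEquiv Φ).algVal = A := by
  obtain ⟨Φ⟩ := exists_padicEquiv ℓ
  obtain ⟨g, hg⟩ := GaloisBasic.exists_smul_eq (Fact.out : ℓ.Prime)
    (CPlace.ofEquiv Φ).algVal_liesOverPrime hA
  refine ⟨(autC g⁻¹).trans Φ, ?_⟩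
  rw [← hg]
  ext x
  rw [ValuationSubring.mem_pointwise_smul_iff_inv_smul_mem, CPlace.mem_algVal, CPlace.mem_algVal,
    CPlace.ofEquiv_abv, CPlace.ofEquiv_abv, RingEquiv.trans_apply, autC_spec, AlgEquiv.smul_def]

/-- A subring of `ℂ` which is a complete discrete valuation ring for the place `P`. -/
structure CPlace.IsCDVR (P : CPlace ℓ) (O : Subring ℂ) : Prop where
  le : O ≤ P.ring
  dvr : IsDiscreteValuationRing O
  complete : IsAdicComplete (IsLocalRing.maximalIdeal O) O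
  isUnit_iff : ∀ x : O, IsUnit x ↔ P.abv (x : ℂ) = 1

/-- There are enough complete discrete valuation rings inside the place, compatibly. -/
def CPlace.HasCDVRs (P : CPlace ℓ) : Prop :=
  ∃ R : Set ℂ → Subring ℂ, Monotone R ∧
    ∀ S : Set ℂ, S.Finite → S ⊆ P.ring → P.IsCDVR (R S) ∧ S ⊆ R S

/-- An element of `PadicAlgCl ℓ` integral over `ℤ_ℓ` has norm at most `1`. -/
theorem norm_le_one_of_isIntegral {x : PadicAlgCl ℓ} (h : IsIntegral ℤ_[ℓ] x) : ‖x‖ ≤ 1 := by
  have hint : IsIntegral ℚ_[ℓ] x := Algebra.IsIntegral.isIntegral x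
  rw [← PadicAlgCl.spectralNorm_eq, spectralNorm, spectralValue_le_one_iff (minpoly.monic hint),
    minpoly.isIntegrallyClosed_eq_field_fractions' ℚ_[ℓ] h]
  intro i
  rw [Polynomial.coeff_map]
  exact ((minpoly ℤ_[ℓ] x).coeff i).2

/-- An element of `PadicAlgCl ℓ` of norm at most `1` is integral over `ℤ_ℓ`. -/
theorem isIntegral_of_norm_le_one {x : PadicAlgCl ℓ} (h : ‖x‖ ≤ 1) : IsIntegral ℤ_[ℓ] x := by
  have hint : IsIntegral ℚ_[ℓ] x := Algebra.IsIntegral.isIntegral x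
  rw [← PadicAlgCl.spectralNorm_eq, spectralNorm, spectralValue_le_one_iff (minpoly.monic hint)]
    at h
  have hlift : minpoly ℚ_[ℓ] x ∈ lifts (algebraMap ℤ_[ℓ] ℚ_[ℓ]) := by
    rw [lifts_iff_coeff_lifts]
    exact fun i => ⟨⟨_, h i⟩, rfl⟩
  obtain ⟨Q, hQ, -, hmon⟩ := lifts_and_degree_eq_and_monic hlift (minpoly.monic hint)
  refine ⟨Q, hmon, ?_⟩
  rw [← Polynomial.aeval_def, ← Polynomial.aeval_map_algebraMap ℚ_[ℓ], hQ, minpoly.aeval]

/-- The elements of norm at most one in the field generated by `S` over `ℚ_ℓ`. -/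
def padicSubring (Φ : ℂ ≃+* PadicAlgCl ℓ) (S : Set ℂ) : Subring ℂ where
  carrier := {z | Φ z ∈ IntermediateField.adjoin ℚ_[ℓ] (Φ '' S) ∧ ‖Φ z‖ ≤ 1}
  one_mem' := ⟨by rw [map_one]; exact one_mem _, by rw [map_one, norm_one]⟩
  zero_mem' := ⟨by rw [map_zero]; exact zero_mem _, by rw [map_zero, norm_zero]; exact zero_le_one⟩
  mul_mem' {a b} ha hb := ⟨by rw [map_mul]; exact mul_mem ha.1 hb.1,
    by rw [map_mul, norm_mul]; exact mul_le_one₀ ha.2 (norm_nonneg _) hb.2⟩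
  add_mem' {a b} ha hb := ⟨by rw [map_add]; exact add_mem ha.1 hb.1,
    by rw [map_add]; exact (IsUltrametricDist.norm_add_le_max _ _).trans (max_le ha.2 hb.2)⟩
  neg_mem' {a} ha := ⟨by rw [map_neg]; exact neg_mem ha.1, by rw [map_neg, norm_neg]; exact ha.2⟩

/-- `padicSubring` grows with the set. -/
theorem padicSubring_mono (Φ : ℂ ≃+* PadicAlgCl ℓ) {S T : Set ℂ} (h : S ⊆ T) :
    padicSubring Φ S ≤ padicSubring Φ T := fun _ hz =>
  ⟨IntermediateField.adjoin.mono _ _ _ (Set.image_mono h) hz.1, hz.2⟩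

/-- An element of the set of norm at most `1` lies in `padicSubring`. -/
theorem mem_padicSubring (Φ : ℂ ≃+* PadicAlgCl ℓ) {S : Set ℂ} {z : ℂ} (hz : z ∈ S)
    (h : ‖Φ z‖ ≤ 1) : z ∈ padicSubring Φ S :=
  ⟨IntermediateField.subset_adjoin _ _ (Set.mem_image_of_mem Φ hz), h⟩

/-- For finite `S` the ring `padicSubring Φ S` is a complete discrete valuation ring. -/
theorem isCDVR_padicSubring (Φ : ℂ ≃+* PadicAlgCl ℓ) {S : Set ℂ} (hfin : S.Finite) :
    (CPlace.ofEquiv Φ).IsCDVR (padicSubring Φ S) := by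
  classical
  set K : IntermediateField ℚ_[ℓ] (PadicAlgCl ℓ) :=
    IntermediateField.adjoin ℚ_[ℓ] (Φ '' S) with hK
  have : Finite (Φ '' S : Set (PadicAlgCl ℓ)) := (hfin.image Φ).to_subtype
  have : FiniteDimensional ℚ_[ℓ] K :=
    IntermediateField.finiteDimensional_adjoin fun x _ => Algebra.IsIntegral.isIntegral x
  have : IsScalarTower ℤ_[ℓ] K (PadicAlgCl ℓ) := IsScalarTower.of_algebraMap_eq fun x => rfl
  have : Module.Finite ℤ_[ℓ] (integralClosure ℤ_[ℓ] K) :=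
    IsIntegralClosure.finite ℤ_[ℓ] ℚ_[ℓ] K _
  set g : integralClosure ℤ_[ℓ] K →+* ℂ :=
    (Φ.symm : PadicAlgCl ℓ →+* ℂ).comp ((algebraMap K (PadicAlgCl ℓ)).comp
      (integralClosure ℤ_[ℓ] K).toSubring.subtype) with hg
  have e : padicSubring Φ S = g.range := by
    ext z
    refine ⟨fun ⟨h1, h2⟩ => ?_, ?_⟩
    · have hint : IsIntegral ℤ_[ℓ] (⟨Φ z, h1⟩ : K) :=
        (isIntegral_algHom_iff (IsScalarTower.toAlgHom ℤ_[ℓ] K (PadicAlgCl ℓ))
          (algebraMap K (PadicAlgCl ℓ)).injective).mp (isIntegral_of_norm_le_one h2)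
      exact ⟨⟨⟨Φ z, h1⟩, hint⟩, by simp [hg]⟩
    · rintro ⟨y, rfl⟩
      have e : Φ (g y) = ((y : K) : PadicAlgCl ℓ) := by simp [hg]
      show Φ (g y) ∈ _ ∧ _
      rw [e]
      exact ⟨(y : K).2, norm_le_one_of_isIntegral
        (y.2.map (IsScalarTower.toAlgHom ℤ_[ℓ] K (PadicAlgCl ℓ)))⟩
  rw [e]
  set O : Subring ℂ := g.range with hO
  have hmem : ∀ z : ℂ, z ∈ O ↔ Φ z ∈ K ∧ ‖Φ z‖ ≤ 1 := fun z => by
    rw [← e]
    exact Iff.rfl
  have hle : O ≤ (CPlace.ofEquiv Φ).ring := fun z hz => ((hmem z).mp hz).2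
  -- inverses of elements of norm at least one
  have hinv : ∀ a b : ℂ, a ∈ O → b ∈ O → ‖Φ a‖ ≤ ‖Φ b‖ → b ≠ 0 → a / b ∈ O := by
    intro a b ha hb hab hb0
    rw [hmem, map_div₀]
    refine ⟨div_mem ((hmem a).mp ha).1 ((hmem b).mp hb).1, ?_⟩
    rw [norm_div, div_le_one (norm_pos_iff.mpr (by simpa using hb0))]
    exact hab
  have hunit : ∀ x : O, IsUnit x ↔ (CPlace.ofEquiv Φ).abv (x : ℂ) = 1 := by
    intro x
    constructor
    · rintro ⟨u, rfl⟩
      refine le_antisymm (hle (u : O).2) ?_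
      have h : ((u : O) : ℂ) * ((u⁻¹ : Oˣ) : O) = 1 := congrArg Subtype.val u.mul_inv
      have h' := congrArg (CPlace.ofEquiv Φ).abv h
      rw [map_mul, map_one] at h'
      calc 1 = _ := h'.symm
        _ ≤ _ := mul_le_of_le_one_right ((CPlace.ofEquiv Φ).abv.nonneg _)
          (hle ((u⁻¹ : Oˣ) : O).2)
    · intro h
      have hx0 : (x : ℂ) ≠ 0 := fun h0 => by rw [h0, map_zero] at h; exact zero_ne_one h
      refine IsUnit.of_mul_eq_one ⟨1 / (x : ℂ), hinv _ _ O.one_mem x.2 ?_ hx0⟩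
        (Subtype.ext (mul_one_div_cancel hx0))
      rw [map_one, norm_one]
      exact (h : ‖Φ (x : ℂ)‖ = 1).ge
  have hV : ValuationRing O := by
    refine ValuationRing.iff_dvd_total.mpr ⟨fun a b => ?_⟩
    rcases eq_or_ne (b : ℂ) 0 with hb | hb
    · exact Or.inl ⟨0, Subtype.ext (by simp [hb])⟩
    rcases eq_or_ne (a : ℂ) 0 with ha | ha
    · exact Or.inr ⟨0, Subtype.ext (by simp [ha])⟩
    rcases le_total ‖Φ (b : ℂ)‖ ‖Φ (a : ℂ)‖ with h | h
    · exact Or.inl ⟨⟨_, hinv _ _ b.2 a.2 h ha⟩, Subtype.ext (mul_div_cancel₀ _ ha).symm⟩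
    · exact Or.inr ⟨⟨_, hinv _ _ a.2 b.2 h hb⟩, Subtype.ext (mul_div_cancel₀ _ hb).symm⟩
  let : Algebra ℤ_[ℓ] O :=
    (g.rangeRestrict.comp (algebraMap ℤ_[ℓ] (integralClosure ℤ_[ℓ] K))).toAlgebra
  have : Module.Finite ℤ_[ℓ] O :=
    Module.Finite.of_surjective
      ({ toFun := g.rangeRestrict
         map_add' := map_add _
         map_smul' := fun c x => by
           simp only [Algebra.smul_def, map_mul, RingHom.id_apply]
           rfl } : integralClosure ℤ_[ℓ] K →ₗ[ℤ_[ℓ]] O) g.rangeRestrict_surjective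
  have : IsNoetherianRing O := IsNoetherianRing.of_finite ℤ_[ℓ] O
  have : IsPrincipalIdealRing O := inferInstance
  have hl : ((ℓ : ℕ) : O) ≠ 0 ∧ ¬ IsUnit ((ℓ : ℕ) : O) := by
    constructor
    · intro h
      have := congrArg Subtype.val h
      push_cast at this
      exact (Fact.out : ℓ.Prime).ne_zero (Nat.cast_eq_zero.mp this)
    · rw [hunit]
      exact (ne_of_lt (by simpa using (CPlace.ofEquiv Φ).lt_one))
  have hdvr : IsDiscreteValuationRing O :=
    { not_a_field' := fun h => hl.2 (IsLocalRing.notMem_maximalIdeal.mp fun hm =>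
        hl.1 (by rwa [h, Ideal.mem_bot] at hm)) }
  have : IsLocalHom (algebraMap ℤ_[ℓ] O) := by
    refine ⟨fun a ha => ?_⟩
    rw [hunit] at ha
    rw [PadicInt.isUnit_iff]
    have e : Φ ((algebraMap ℤ_[ℓ] O a : O) : ℂ) =
        algebraMap ℚ_[ℓ] (PadicAlgCl ℓ) (a : ℚ_[ℓ]) := by
      show Φ (g (algebraMap ℤ_[ℓ] (integralClosure ℤ_[ℓ] K) a)) = _
      simp [hg]
      rfl
    rw [CPlace.ofEquiv_abv, e, norm_algebraMap'] at ha
    exact ha
  exact ⟨hle, hdvr, IsLocalRing.isAdicComplete_of_module_finite (𝒪 := ℤ_[ℓ]), hunit⟩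

/-- The places coming from `ℓ`-adic identifications have enough complete rings. -/
theorem hasCDVRs_ofEquiv (Φ : ℂ ≃+* PadicAlgCl ℓ) : (CPlace.ofEquiv Φ).HasCDVRs :=
  ⟨padicSubring Φ, fun _ _ h => padicSubring_mono Φ h, fun _ hS hle =>
    ⟨isCDVR_padicSubring Φ hS, fun _ hx => mem_padicSubring Φ hx (hle hx)⟩⟩

end Padic

end FermatAgent.ES
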