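import Fermat.Agent.ES.Coeff.Padic
import Mathlib.RingTheory.LocalRing.ResidueField.Basic
import Mathlib.RingTheory.PowerSeries.Basic

/-!
# Residues at a place
-/

set_option autoImplicit false

open Polynomial

noncomputable section

namespace FermatAgent.ES

namespace CPlace

variable {ℓ : ℕ} (P : CPlace ℓ)

/-- An element of the valuation ring is a unit iff its absolute value is `1`. -/
theorem isUnit_ring_iff (x : P.ring) : IsUnit x ↔ P.abv (x : ℂ) = 1 := by
  constructor
  · rintro ⟨u, rfl⟩
    refine le_antisymm (u : P.ring).2 ?_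
    have h : P.abv ((u : P.ring) : ℂ) * P.abv (((u⁻¹ : P.ringˣ) : P.ring) : ℂ) = 1 := by
      rw [← map_mul, ← Subring.coe_mul, u.mul_inv, Subring.coe_one, map_one]
    calc 1 = _ := h.symm
      _ ≤ _ := mul_le_of_le_one_right (P.abv.nonneg _) ((u⁻¹ : P.ringˣ) : P.ring).2
  · intro h
    have hu := P.unitIn_of_abv_eq_one h
    exact IsUnit.of_mul_eq_one ⟨_, hu.2.2⟩ (Subtype.ext (mul_inv_cancel₀ hu.1))

instance isLocalRing_ring : IsLocalRing P.ring :=
  IsLocalRing.of_nonunits_add fun {a b} ha hb => by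
    simp only [mem_nonunits_iff, isUnit_ring_iff] at ha hb ⊢
    exact (P.add_lt (lt_of_le_of_ne a.2 ha) (lt_of_le_of_ne b.2 hb)).ne

/-- The residue map. -/
abbrev res : P.ring →+* IsLocalRing.ResidueField P.ring := IsLocalRing.residue P.ring

/-- The residue of an element is zero iff its absolute value is `< 1`. -/
theorem res_eq_zero_iff {x : P.ring} : P.res x = 0 ↔ P.abv (x : ℂ) < 1 := by
  rw [IsLocalRing.residue_eq_zero_iff, IsLocalRing.mem_maximalIdeal, mem_nonunits_iff,
    isUnit_ring_iff]
  exact ⟨fun h => lt_of_le_of_ne x.2 h, ne_of_lt⟩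

/-- Two elements have the same residue iff their difference has absolute value `< 1`. -/
theorem res_eq_iff {x y : P.ring} : P.res x = P.res y ↔ P.abv ((x : ℂ) - y) < 1 := by
  rw [← sub_eq_zero, ← map_sub, res_eq_zero_iff, AddSubgroupClass.coe_sub]

/-- Two series have the same reduction iff all coefficients differ by elements of absolute value
`< 1`. -/
theorem map_res_eq_iff {x y : PowerSeries P.ring} :
    PowerSeries.map P.res x = PowerSeries.map P.res y ↔
      ∀ i, P.abv ((PowerSeries.coeff i x : P.ring) - (PowerSeries.coeff i y : P.ring) : ℂ) < 1 := by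
  simp [PowerSeries.ext_iff, res_eq_iff]

/-- A series with nonzero reduction has a coefficient of absolute value `1`. -/
theorem exists_abv_eq_one_of_map_res_ne {x : PowerSeries P.ring}
    (h : PowerSeries.map P.res x ≠ 0) : ∃ i, P.abv ((PowerSeries.coeff i x : P.ring) : ℂ) = 1 := by
  by_contra hne
  push Not at hne
  refine h (PowerSeries.ext fun i => ?_)
  rw [PowerSeries.coeff_map, map_zero, res_eq_zero_iff]
  exact lt_of_le_of_ne (PowerSeries.coeff i x : P.ring).2 (hne i)

/-- A primitive root of unity of order prime to `ℓ` stays primitive in the residue field. -/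
theorem res_isPrimitiveRoot {n : ℕ} [NeZero n] (hn : n.Coprime ℓ) {z : P.ring}
    (hz : (z : ℂ) = zetaC n) : IsPrimitiveRoot (P.res z) n := by
  have hg := P.goodRoot hn
  refine ⟨by rw [← map_pow, show z ^ n = 1 from Subtype.ext (by
    rw [SubmonoidClass.coe_pow, hz, hg.prim.pow_eq_one]; rfl), map_one], fun i hi => ?_⟩
  by_contra h
  rw [← map_pow, ← map_one P.res, res_eq_iff, SubmonoidClass.coe_pow, hz, Subring.coe_one,
    ← AbsoluteValue.map_neg, neg_sub] at hi
  exact absurd (P.abv_eq_one_of_unitIn (hg.unit_one_sub i h)) hi.ne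

end CPlace

namespace CPlace.IsCDVR

variable {ℓ : ℕ} {P : CPlace ℓ} {O : Subring ℂ} (hO : P.IsCDVR O)
include hO

/-- An element of a complete ring of absolute value `1` is a unit of it. -/
theorem unitIn {x : ℂ} (hx : x ∈ O) (h : P.abv x = 1) : UnitIn O x := by
  obtain ⟨u, hu⟩ := (hO.isUnit_iff ⟨x, hx⟩).mpr h
  have hx0 : x ≠ 0 := fun h0 => by rw [h0, map_zero] at h; exact zero_ne_one h
  refine ⟨hx0, hx, ?_⟩
  have e : x⁻¹ = ((u⁻¹ : Oˣ) : O) := by
    refine inv_eq_of_mul_eq_one_right ?_
    have := congrArg Subtype.val u.mul_inv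
    rw [hu] at this
    exact this
  rw [e]
  exact ((u⁻¹ : Oˣ) : O).2

/-- A unit of the valuation ring lying in a complete ring is a unit of it. -/
theorem unitIn_of_unitIn {x : ℂ} (hx : x ∈ O) (h : UnitIn P.ring x) : UnitIn O x :=
  hO.unitIn hx (P.abv_eq_one_of_unitIn h)

/-- A good root over the valuation ring lying in a complete ring is good over that ring. -/
theorem goodRoot {M : ℕ} (hg : GoodRoot M P.ring (zetaC M)) (hz : zetaC M ∈ O) :
    GoodRoot M O (zetaC M) :=
  ⟨hg.prim, hz, fun i hi =>
    hO.unitIn_of_unitIn (O.sub_mem O.one_mem (O.pow_mem hz i)) (hg.unit_one_sub i hi)⟩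

/-- The maximal ideal of a complete ring consists of its elements of absolute value `< 1`. -/
theorem mem_maximalIdeal_iff (x : O) :
    haveI := hO.dvr
    x ∈ IsLocalRing.maximalIdeal O ↔ P.abv (x : ℂ) < 1 := by
  have := hO.dvr
  rw [IsLocalRing.mem_maximalIdeal, mem_nonunits_iff, hO.isUnit_iff]
  exact ⟨fun h => lt_of_le_of_ne (hO.le x.2) h, ne_of_lt⟩

end CPlace.IsCDVR

end FermatAgent.ES
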